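import Fermat.Agent.S59.TW.Aut.Spec
import Fermat.Agent.S59.Arch.WilesLevel
import Fermat.Agent.S54.FrobExists

/-!
# Row S59 / row 37, cell TW, layer 3 (AUT): lemmas for the glue (helper511)

* `pkg_induction` : the Hecke ring of a package is generated over `𝒪` by the `T_ℓ`, `ℓ ∉ Σ`;
* `red_surjective` : `(ℤ/M_Q)ˣ → ∏ (ℤ/q_j)ˣ` is onto (Chinese remainder theorem);
* `diamondU_eq_of_chi` : the diamond operator of `K_Q` depends only on the class in `Δ_Q`;
* `ModOf V a` : the submodule `V` with the action of `T` through `a : T →ₐ[𝒪] End_𝒪 V`.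
-/

set_option autoImplicit false

open Polynomial IsLocalRing CongruenceSubgroup
open scoped MatrixGroups

namespace Fermat.Agent.S59.TW.Aut

open Fermat.Agent.S59.Arch Fermat.Agent.S59.TW.H959 Fermat.Agent.S59.TW.H653

/-! ## Generation of the Hecke ring -/

section Gen

variable {p : ℕ}
  {𝒪 : Type} [CommRing 𝒪] [IsDomain 𝒪] [IsDiscreteValuationRing 𝒪]
  [IsAdicComplete (maximalIdeal 𝒪) 𝒪]
  {ρbar : ResidualGaloisRep (ResidueField 𝒪)} {t : PType} {Smin : Finset ℕ}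

/-- Induction principle for the Hecke ring of a package all of whose bad primes lie in `Σ`:
it is generated as an `𝒪`-algebra by the `T_ℓ`, `ℓ ∉ Σ`. -/
theorem pkg_induction {Sig : Finset ℕ} [NeZero (wilesLevel p t Smin Sig)]
    (P : HeckePkg p 𝒪 ρbar t Smin Sig)
    (hU : ∀ q : ℕ, q.Prime → q ∣ wilesLevel p t Smin Sig → q ∈ (↑Sig : Set ℕ))
    (C : P.T → Prop) (h𝒪 : ∀ c : 𝒪, C (algebraMap 𝒪 P.T c))
    (hadd : ∀ x y, C x → C y → C (x + y)) (hmul : ∀ x y, C x → C y → C (x * y))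
    (hT : ∀ (ℓ : ℕ) (hℓ : ℓ.Prime) (hℓN : ¬ ℓ ∣ wilesLevel p t Smin Sig)
      (hℓS : ℓ ∉ (↑Sig : Set ℕ)), C (P.H.π (CuspForm.heckeAlgebra.T hℓ hℓN hℓS))) :
    ∀ s : P.T, C s := by
  intro s
  have hs : s ∈ Algebra.adjoin 𝒪 (Set.range P.H.π) := by
    rw [P.H.adjoin_range_π]
    trivial
  induction hs using Algebra.adjoin_induction with
  | mem x hx =>
    obtain ⟨⟨t0, ht0⟩, rfl⟩ := hx
    have key : ∀ (y : Module.End ℂ (CuspForm (Gamma0 (wilesLevel p t Smin Sig)) 2))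
        (hy : y ∈ Algebra.adjoin ℤ (CuspForm.heckeGenerators (wilesLevel p t Smin Sig) 2
          (↑Sig : Set ℕ))), C (P.H.π ⟨y, hy⟩) := by
      intro y hy
      induction hy using Algebra.adjoin_induction with
      | mem z hz =>
        rcases hz with ⟨ℓ, hℓ, hℓN, hℓS, rfl⟩ | ⟨q, hqN, hq, hqS, rfl⟩
        · exact hT ℓ hℓ hℓN hℓS
        · exact absurd (hU q hq hqN) hqS
      | algebraMap n =>
        have h1 : (⟨algebraMap ℤ _ n, Subalgebra.algebraMap_mem _ n⟩ :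
            CuspForm.heckeAlgebra (wilesLevel p t Smin Sig) 2 (↑Sig : Set ℕ)) =
            ((n : ℤ) : CuspForm.heckeAlgebra (wilesLevel p t Smin Sig) 2 (↑Sig : Set ℕ)) := by
          apply Subtype.ext
          simp
        rw [h1, map_intCast]
        have h2 : ((n : ℤ) : P.T) = algebraMap 𝒪 P.T (n : 𝒪) := by
          rw [map_intCast]
        rw [h2]
        exact h𝒪 _
      | add a b ha hb iha ihb =>
        have h1 : (⟨a + b, add_mem ha hb⟩ :
            CuspForm.heckeAlgebra (wilesLevel p t Smin Sig) 2 (↑Sig : Set ℕ)) =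
            ⟨a, ha⟩ + ⟨b, hb⟩ := rfl
        rw [h1, map_add]
        exact hadd _ _ iha ihb
      | mul a b ha hb iha ihb =>
        have h1 : (⟨a * b, mul_mem ha hb⟩ :
            CuspForm.heckeAlgebra (wilesLevel p t Smin Sig) 2 (↑Sig : Set ℕ)) =
            ⟨a, ha⟩ * ⟨b, hb⟩ := rfl
        rw [h1, map_mul]
        exact hmul _ _ iha ihb
    exact key t0 ht0
  | algebraMap c => exact h𝒪 c
  | add x y _ _ hx hy => exact hadd x y hx hy
  | mul x y _ _ hx hy => exact hmul x y hx hy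

end Gen

/-! ## The Chinese remainder theorem for `red` -/

section CRT

variable (N₀ : ℕ) {r : ℕ} (qv : Fin r → ℕ)

theorem red_apply (u : (ZMod (bLevel N₀ qv))ˣ) (j : Fin r) :
    red N₀ qv u j = ZMod.unitsMap (dvd_bLevel N₀ qv j) u := rfl

/-- `(ℤ/M_Q)ˣ → ∏ (ℤ/q_j)ˣ` is onto. -/
theorem red_surjective (hN₀ : N₀ ≠ 0) (hinj : Function.Injective qv)
    (hprime : ∀ j, (qv j).Prime) : Function.Surjective (red N₀ qv) := by
  intro a
  have hcop : Pairwise (Function.onFun Nat.Coprime qv) := by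
    intro i j hij
    exact (Nat.coprime_primes (hprime i) (hprime j)).mpr fun h => hij (hinj h)
  have hM : NeZero (bLevel N₀ qv) :=
    ⟨Nat.mul_ne_zero hN₀ (Finset.prod_ne_zero_iff.mpr fun j _ => (hprime j).ne_zero)⟩
  have hPM : (∏ j, qv j) ∣ bLevel N₀ qv := Dvd.intro_left _ rfl
  set e := ZMod.prodEquivPi qv hcop with he
  set x : ZMod (∏ j, qv j) := e.symm (fun j => ((a j : (ZMod (qv j))ˣ) : ZMod (qv j))) with hx
  set y : ZMod (∏ j, qv j) := e.symm (fun j => ((a j)⁻¹ : (ZMod (qv j))ˣ)) with hy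
  have hxy : x * y = 1 := by
    rw [hx, hy, ← map_mul]
    have : ((fun j => ((a j : (ZMod (qv j))ˣ) : ZMod (qv j))) *
        fun j => (((a j)⁻¹ : (ZMod (qv j))ˣ) : ZMod (qv j))) = 1 := by
      funext j
      simp
    rw [this, map_one]
  obtain ⟨u, hu⟩ := ZMod.unitsMap_surjective hPM (Units.mkOfMulEqOne x y hxy)
  refine ⟨u, ?_⟩
  funext j
  apply Units.ext
  rw [red_apply]
  have h1 : ZMod.unitsMap (dvd_bLevel N₀ qv j) u =
      ZMod.unitsMap (Finset.dvd_prod_of_mem qv (Finset.mem_univ j)) (ZMod.unitsMap hPM u) := by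
    rw [← MonoidHom.comp_apply, ZMod.unitsMap_comp]
  rw [h1, hu]
  show ZMod.castHom (Finset.dvd_prod_of_mem qv (Finset.mem_univ j)) (ZMod (qv j)) x = _
  rw [← ZMod.prodEquivPi_apply qv hcop x j, ← he, hx, RingEquiv.apply_symm_apply]

end CRT

/-! ## The diamond operators of `K_Q` -/

section Dia

variable (p N₀ : ℕ) {r : ℕ} (qv : Fin r → ℕ) {A : Type} [AddCommGroup A]

theorem diamondU_of_chi [NeZero (bLevel N₀ qv)] {u : (ZMod (bLevel N₀ qv))ˣ}
    (hu : chi p N₀ qv u = 1) (x : Additive (KQ p N₀ qv) →+ A) :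
    diamondU (isMid_KQ p N₀ qv) u x = x := by
  have h := diamondHom_GammaH (A := A) (M := bLevel N₀ qv) (H := (chi p N₀ qv).ker)
    (u := u) (MonoidHom.mem_ker.mpr hu)
  have h2 := congrArg (fun f : AddMonoid.End (Additive (GammaH (bLevel N₀ qv)
    (chi p N₀ qv).ker) →+ A) => f x) h
  exact h2

/-- The diamond operator of `K_Q` depends only on the class in `Δ_Q`. -/
theorem diamondU_eq_of_chi [NeZero (bLevel N₀ qv)] {u u' : (ZMod (bLevel N₀ qv))ˣ}
    (hu : chi p N₀ qv u = chi p N₀ qv u') (x : Additive (KQ p N₀ qv) →+ A) :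
    diamondU (isMid_KQ p N₀ qv) u x = diamondU (isMid_KQ p N₀ qv) u' x := by
  have h1 : u = u' * (u'⁻¹ * u) := by group
  have h2 : chi p N₀ qv (u'⁻¹ * u) = 1 := by
    rw [map_mul, map_inv, hu, inv_mul_cancel]
  rw [h1, diamondU_mul, diamondU_of_chi p N₀ qv h2]

theorem chi_eq_of_red {u u' : (ZMod (bLevel N₀ qv))ˣ} (h : red N₀ qv u = red N₀ qv u') :
    chi p N₀ qv u = chi p N₀ qv u' := by
  unfold chi
  rw [MonoidHom.comp_apply, MonoidHom.comp_apply, h]

end Dia

end Fermat.Agent.S59.TW.Aut
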