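import Fermat.Agent.S59.TW.Spec
import Fermat.Agent.S59.TW.H653.Diamond

/-!
# Row S59 / row 37, cell TW, LAYER 3: the automorphic module (`TW.AutStatement`) — interface
(AUT assembler helper511; board `coord/S59-AUT.md`)

Layer 2 (`TW/Spec.lean`, helper24) asks for `AutStatement`: a nonzero `T_min`-module `M₀` and, for
every Taylor–Wiles set `Q`, every package `P_Q` and every restriction map `res : T_Q → T_min`, an
`AutLevel` (module `M_Q` over `T_Q`, diamond action, freeness over `𝒪[Δ_Q]`, `π : M_Q ↠ M₀` with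
kernel the augmentation submodule) satisfying the comparison `Cmp`.

This file cuts `AutStatement` into leaves, in the Betti vocabulary of helper653
(`TW/H653/{Defs,Systems,Diamond}.lean`): `X_K(𝒪) = Additive K →+ 𝒪`, `TK`, `UK`, `diamondU`.
Only sorry-free definitions here.  The glue `aut_of_leaves` is in `TW/Aut/Skel.lean`.

## The objects (all CONCRETE, so that the leaves are independent)

* `N₀ = wilesLevel p t Smin Smin`, `M_Q = bLevel N₀ qv = N₀ · ∏ q_j` (NOT `N₀ · ∏ q_j²`);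
* `Δ_Q = Delta p qv = ∏ (ℤ/q_j)ˣ / (p^{m_j}-th powers)`, `κ_Q = kappa : Γ₀(M_Q) → Δ_Q`,
  `K_Q = KQ p N₀ qv = ker κ_Q = GammaH M_Q (ker χ_Q)` (`= MFree.kerSub κ_Q` by `rfl`);
* `M_Q := V`, THE localisation of `X_{K_Q}(𝒪)` at the maximal ideal
  `(𝔪_𝒪, T_ℓ - c_ℓ (ℓ ∉ Smin ∪ Q, c_ℓ ↦ θ_Q(T_ℓ)), U_{q_j} - α_j)` (`IsLocPart`), where `α_j ∈ 𝒪`
  lifts ONE of the two eigenvalues of `ρ̄(Frob_{q_j})`.  The localisation at `U_q - α` is forced by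
  the frozen quantifier order (`M₀` is chosen before `Q`: review of helper864);
* `M₀ := V₀`, the localisation of `X_{Γ₀(N₀)}(𝒪)` at `(𝔪_𝒪, T_ℓ - c_ℓ)`;
* `T_Q = P_Q.T` acts on `V` through `t_ℓ = ⟨ℓ⟩^h T_ℓ` (`h` is found by the owner of MODQ,
  `2h ≡ -1` modulo the exponent of `Δ_Q`: `IsHalf`); the diamond action of `AutLevel` is the plain one
  (`Cmp` does not depend on the normalisation).

## Leaves (each is a `Prop`; prove `theorem foo : FooStatement` VERBATIM)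

| leaf | Prop | content | inputs |
|---|---|---|---|
| IDEM   | `IdemStatement`    | the localisation `V` exists, for ANY `K`, ANY eigen-system | Mathlib + H653 commutation; `X_K(𝒪)` finite free |
| MOD0   | `Mod0Statement`    | `T_min` acts on `V₀`, `T_ℓ ↦ TK ℓ` | ES (S21) + `heckeLocal` (`S59/H7`) |
| NONTRIV| `NontrivStatement` | `V₀ ≠ 0` | ES + faithfulness of the Hecke algebra on `S₂` |
| MODQ   | `ModQStatement`    | `T_Q = heckeLocal (N₀ Q²)` acts on `V`, `T_ℓ ↦ ⟨ℓ⟩^h TK ℓ` | TW-ES (helper658) + TW-TWIST (helper564) |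
| FREE   | `FreeQStatement`   | `V` has an `𝒪`-basis `⟨g^e⟩ b_i` | M-FREE (`MFree.free`, on main) + (Ell) at `p = 3` |
| CTRL   | `CtrlStatement`    | `π : V ↠ V₀`, Hecke-equivariant, `ker π = I_Δ V` | M-FREE (ker cor, cor onto) + TW-CTRL (helper105) |
| CMP    | `CmpStatement`     | `(w - 1) V = (⟨a⟩_j - 1) V` for every inertia value `w` | TW-ALG (helper314): (T) + (R) ⇐ S31, frozen S36, E2 |
-/

set_option autoImplicit false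

open Polynomial IsLocalRing CongruenceSubgroup
open scoped MatrixGroups

namespace Fermat.Agent.S59.TW.Aut

open Fermat.Agent.S59.Arch Fermat.Agent.S59.TW.H959 Fermat.Agent.S59.TW.H653

/-! ## The Betti level of a Taylor–Wiles set -/

section Level

variable (p N₀ : ℕ) {r : ℕ} (qv : Fin r → ℕ)

/-- The Betti level `M_Q = N₀ · ∏ q_j` of the Taylor–Wiles set `Q = {q_j}`. -/
def bLevel : ℕ := N₀ * ∏ j, qv j

theorem dvd_bLevel (j : Fin r) : qv j ∣ bLevel N₀ qv :=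
  Dvd.dvd.mul_left (Finset.dvd_prod_of_mem qv (Finset.mem_univ j)) N₀

theorem self_dvd_bLevel : N₀ ∣ bLevel N₀ qv := Dvd.intro _ rfl

/-- The subgroup of the `p^{m_j}`-th powers, `m_j = v_p(q_j - 1)`. -/
def powSub : Subgroup (∀ j : Fin r, (ZMod (qv j))ˣ) :=
  Subgroup.pi Set.univ fun j =>
    (powMonoidHom (p ^ padicValNat p (qv j - 1)) : (ZMod (qv j))ˣ →* (ZMod (qv j))ˣ).range

/-- `Δ_Q`: the product of the `p`-Sylow quotients of the `(ℤ/q_j)ˣ`. -/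
abbrev Delta : Type := (∀ j : Fin r, (ZMod (qv j))ˣ) ⧸ powSub p qv

/-- Reduction `(ℤ/M_Q)ˣ → ∏ (ℤ/q_j)ˣ`. -/
def red : (ZMod (bLevel N₀ qv))ˣ →* ∀ j : Fin r, (ZMod (qv j))ˣ :=
  MonoidHom.pi fun j => ZMod.unitsMap (dvd_bLevel N₀ qv j)

/-- `χ_Q : (ℤ/M_Q)ˣ → Δ_Q`. -/
def chi : (ZMod (bLevel N₀ qv))ˣ →* Delta p qv :=
  (QuotientGroup.mk' (powSub p qv)).comp (red N₀ qv)

/-- `κ_Q : Γ₀(M_Q) → Δ_Q`, `γ ↦ (d mod q_j)_j`. -/
def kappa : Gamma0 (bLevel N₀ qv) →* Delta p qv :=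
  (chi p N₀ qv).comp (dUnit (bLevel N₀ qv))

/-- `K_Q = ker κ_Q`, the group `Γ₀(N₀) ∩ Γ_H(Q)` of Taylor–Wiles. -/
def KQ : Subgroup SL(2, ℤ) := GammaH (bLevel N₀ qv) (chi p N₀ qv).ker

theorem isMid_KQ : IsMid (bLevel N₀ qv) (KQ p N₀ qv) := isMid_GammaH _ _

/-- `K_Q` in the vocabulary of block M-FREE: `K_Q = MFree.kerSub κ_Q`. -/
theorem KQ_eq_ker :
    KQ p N₀ qv = (kappa p N₀ qv).ker.map (Gamma0 (bLevel N₀ qv)).subtype := rfl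

/-- A lift of `a ∈ ∏ (ℤ/q_j)ˣ` to `(ℤ/M_Q)ˣ` (any: the diamond operator of `K_Q` depends only on
the class of `red u` in `Δ_Q`). -/
noncomputable def liftU (a : ∀ j : Fin r, (ZMod (qv j))ˣ) : (ZMod (bLevel N₀ qv))ˣ :=
  open scoped Classical in if h : ∃ u, red N₀ qv u = a then h.choose else 1

theorem red_liftU {a : ∀ j : Fin r, (ZMod (qv j))ˣ} (h : ∃ u, red N₀ qv u = a) :
    red N₀ qv (liftU N₀ qv a) = a := by
  unfold liftU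
  rw [dif_pos h]
  exact h.choose_spec

end Level

/-- The class of `ℓ` in `(ℤ/M)ˣ` (`1` if `ℓ` is not prime to `M`). -/
noncomputable def uOf (M ℓ : ℕ) : (ZMod M)ˣ :=
  open scoped Classical in if h : Nat.Coprime ℓ M then ZMod.unitOfCoprime ℓ h else 1

theorem coe_uOf {M ℓ : ℕ} (h : Nat.Coprime ℓ M) : ((uOf M ℓ : (ZMod M)ˣ) : ZMod M) = ℓ := by
  unfold uOf
  rw [dif_pos h]
  rfl

/-! ## The localisation of `X_K(𝒪)` at a maximal ideal of the Hecke algebra -/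

section Loc

variable {M : ℕ} {K : Subgroup SL(2, ℤ)} (hK : IsMid M K)
  {𝒪 : Type} [CommRing 𝒪] [IsLocalRing 𝒪]

/-- `𝔪_𝒪 · X_K(𝒪)`. -/
def mX (K : Subgroup SL(2, ℤ)) (𝒪 : Type) [CommRing 𝒪] [IsLocalRing 𝒪] :
    Submodule 𝒪 (Additive K →+ 𝒪) :=
  maximalIdeal 𝒪 • (⊤ : Submodule 𝒪 (Additive K →+ 𝒪))

/-- **`V` is the localisation of `X_K(𝒪)` at the maximal ideal `𝔫 = (𝔪_𝒪, T_ℓ - c, U_q - α)`**,
`(ℓ, c) ∈ Tset`, `(q, α) ∈ Uset`, of the algebra generated by all the `T_ℓ` (`ℓ ∤ M`), `U_q`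
(`q ∣ M`) and the diamond operators:

* `V` is the image of a projector `e` commuting with all these operators;
* the generators of `𝔫` are nilpotent on `V / 𝔪_𝒪 V`;
* FULLNESS: `ker e / 𝔪_𝒪` contains no nonzero vector killed by all the generators of `𝔫`.

For `X_K(𝒪)` finite free over a complete discrete valuation ring `𝒪`, such a `V` exists and is
unique (`IdemStatement`; it is `0` if `𝔫` is the unit ideal). -/
structure IsLocPart (Tset Uset : Set (ℕ × 𝒪)) (V : Submodule 𝒪 (Additive K →+ 𝒪)) : Prop where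
  exists_proj : ∃ e : (Additive K →+ 𝒪) →ₗ[𝒪] (Additive K →+ 𝒪),
    (∀ x, e (e x) = e x) ∧ (∀ x, e x ∈ V) ∧ (∀ x ∈ V, e x = x) ∧
    (∀ (ℓ : ℕ) [Fact ℓ.Prime], ¬ ℓ ∣ M → ∀ x, e (TK M K ℓ x) = TK M K ℓ (e x)) ∧
    (∀ (q : ℕ) [Fact q.Prime], q ∣ M → ∀ x, e (UK K q x) = UK K q (e x)) ∧
    (∀ (u : (ZMod M)ˣ) (x), e (diamondU hK u x) = diamondU hK u (e x)) ∧
    ∀ x, e x = 0 →
      (∀ (ℓ : ℕ) [Fact ℓ.Prime] (c : 𝒪), (ℓ, c) ∈ Tset → TK M K ℓ x - c • x ∈ mX K 𝒪) →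
      (∀ (q : ℕ) [Fact q.Prime] (α : 𝒪), (q, α) ∈ Uset → UK K q x - α • x ∈ mX K 𝒪) →
      x ∈ mX K 𝒪
  nilp_T : ∀ (ℓ : ℕ) [Fact ℓ.Prime] (c : 𝒪), (ℓ, c) ∈ Tset →
    ∃ m : ℕ, ∀ x ∈ V, (fun y => TK M K ℓ y - c • y)^[m] x ∈ mX K 𝒪
  nilp_U : ∀ (q : ℕ) [Fact q.Prime] (α : 𝒪), (q, α) ∈ Uset →
    ∃ m : ℕ, ∀ x ∈ V, (fun y => UK K q y - α • y)^[m] x ∈ mX K 𝒪

end Loc

/-! ## The eigen-systems -/

section Ctx

variable {p : ℕ}
  {𝒪 : Type} [CommRing 𝒪] [IsDomain 𝒪] [IsDiscreteValuationRing 𝒪]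
  [IsAdicComplete (maximalIdeal 𝒪) 𝒪]
  {ρbar : ResidualGaloisRep (ResidueField 𝒪)} {t : PType} {Smin : Finset ℕ}

/-- The pairs `(ℓ, c)`: `ℓ` a good prime of the package `P` and `c ∈ 𝒪` a lift of `θ(T_ℓ)`. -/
def TsetOf {Sig : Finset ℕ} [NeZero (wilesLevel p t Smin Sig)]
    (P : HeckePkg p 𝒪 ρbar t Smin Sig) : Set (ℕ × 𝒪) :=
  {x | ∃ (hℓ : x.1.Prime) (hℓN : ¬ x.1 ∣ wilesLevel p t Smin Sig)
    (hℓS : x.1 ∉ (↑Sig : Set ℕ)),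
    residue 𝒪 x.2 = P.θ (CuspForm.heckeAlgebra.T hℓ hℓN hℓS)}

/-- The pairs `(q_j, α_j)`. -/
def UsetOf {r : ℕ} (qv : Fin r → ℕ) (α : Fin r → 𝒪) : Set (ℕ × 𝒪) :=
  {x | ∃ j, x = (qv j, α j)}

/-- `α_j` lifts an eigenvalue of `ρ̄(Frob_{q_j})`, for every `j`. -/
def IsFrobLift (ρbar : ResidualGaloisRep (ResidueField 𝒪)) {r : ℕ} (qv : Fin r → ℕ)
    (α : Fin r → 𝒪) : Prop :=
  ∀ j, ∃ (P : ValuationSubring Qb) (φ : GQ) (β : ResidueField 𝒪),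
    P.LiesOverPrime (qv j) ∧ P.IsFrobeniusAt φ (qv j) ∧ residue 𝒪 (α j) ≠ β ∧
    LinearMap.charpoly (ρbar.ρ φ) = (X - C (residue 𝒪 (α j))) * (X - C β)

/-- The algebra action `a` of the Hecke ring of the package `P` on `V ⊆ X_K(𝒪)` maps `T_ℓ` to the
operator `τ ℓ`, for every good prime `ℓ` of `P`. -/
def ActsBy {Sig : Finset ℕ} [NeZero (wilesLevel p t Smin Sig)]
    (P : HeckePkg p 𝒪 ρbar t Smin Sig) {K : Subgroup SL(2, ℤ)}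
    (V : Submodule 𝒪 (Additive K →+ 𝒪)) (a : P.T →ₐ[𝒪] Module.End 𝒪 V)
    (τ : ∀ ℓ : ℕ, ℓ.Prime → (Additive K →+ 𝒪) → (Additive K →+ 𝒪)) : Prop :=
  ∀ (ℓ : ℕ) (hℓ : ℓ.Prime) (hℓN : ¬ ℓ ∣ wilesLevel p t Smin Sig)
    (hℓS : ℓ ∉ (↑Sig : Set ℕ)) (v : V),
    ((a (P.H.π (CuspForm.heckeAlgebra.T hℓ hℓN hℓS)) v : V) : Additive K →+ 𝒪) = τ ℓ hℓ v

/-- `T_ℓ` on `X_K(𝒪)`, with the primality of `ℓ` as an explicit argument. -/
noncomputable def tOp (M : ℕ) (K : Subgroup SL(2, ℤ)) (𝒪 : Type) [CommRing 𝒪]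
    (ℓ : ℕ) (hℓ : ℓ.Prime) (x : Additive K →+ 𝒪) : Additive K →+ 𝒪 :=
  @TK M K 𝒪 _ ℓ ⟨hℓ.ne_zero⟩ x

/-- `⟨ℓ⟩^h T_ℓ` on `X_K(𝒪)`. -/
noncomputable def tOpTw {M : ℕ} {K : Subgroup SL(2, ℤ)} (hK : IsMid M K) (𝒪 : Type) [CommRing 𝒪]
    (h : ℕ) (ℓ : ℕ) (hℓ : ℓ.Prime) (x : Additive K →+ 𝒪) : Additive K →+ 𝒪 :=
  diamondU hK (uOf M ℓ ^ h) (tOp M K 𝒪 ℓ hℓ x)

end Ctx

/-! ## The leaves at the minimal level -/

section Min

variable {p : ℕ}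
  {𝒪 : Type} [CommRing 𝒪] [IsDomain 𝒪] [IsDiscreteValuationRing 𝒪]
  [IsAdicComplete (maximalIdeal 𝒪) 𝒪]
  {ρbar : ResidualGaloisRep (ResidueField 𝒪)} {t : PType} {Smin : Finset ℕ}
  [NeZero (wilesLevel p t Smin Smin)]

/-- `V₀` is the localisation of `X_{Γ₀(N₀)}(𝒪)` at the maximal ideal of the package `P₀`. -/
def IsMinPart (P₀ : HeckePkg p 𝒪 ρbar t Smin Smin)
    (V₀ : Submodule 𝒪 (Additive (Gamma0 (wilesLevel p t Smin Smin)) →+ 𝒪)) : Prop :=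
  IsLocPart (isMid_Gamma0 (wilesLevel p t Smin Smin)) (TsetOf P₀) ∅ V₀

/-- The action of `T_min` on `V₀`: `T_ℓ ↦ T_ℓ`. -/
def IsMinAction (P₀ : HeckePkg p 𝒪 ρbar t Smin Smin)
    (V₀ : Submodule 𝒪 (Additive (Gamma0 (wilesLevel p t Smin Smin)) →+ 𝒪))
    (a₀ : P₀.T →ₐ[𝒪] Module.End 𝒪 V₀) : Prop :=
  ActsBy P₀ V₀ a₀ (tOp (wilesLevel p t Smin Smin) (Gamma0 (wilesLevel p t Smin Smin)) 𝒪)

end Min

/-! ## The leaves at the level `Q` -/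

section LevelQ

variable {p : ℕ}
  {𝒪 : Type} [CommRing 𝒪] [IsDomain 𝒪] [IsDiscreteValuationRing 𝒪]
  [IsAdicComplete (maximalIdeal 𝒪) 𝒪]
  {ρbar : ResidualGaloisRep (ResidueField 𝒪)} {t : PType} {Smin : Finset ℕ}
  {r : ℕ} {qv : Fin r → ℕ}
  [NeZero (wilesLevel p t Smin (Smin ∪ Finset.univ.image qv))]

/-- The Betti module at the level `Q`: `X_{K_Q}(𝒪)`. -/
abbrev XQ (p : ℕ) (t : PType) (Smin : Finset ℕ) {r : ℕ} (qv : Fin r → ℕ) (𝒪 : Type)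
    [CommRing 𝒪] : Type :=
  Additive (KQ p (wilesLevel p t Smin Smin) qv) →+ 𝒪

/-- `V` is the localisation of `X_{K_Q}(𝒪)` at the maximal ideal of the package `P_Q` and of
`U_{q_j} - α_j`. -/
def IsQPart (PQ : HeckePkg p 𝒪 ρbar t Smin (Smin ∪ Finset.univ.image qv)) (α : Fin r → 𝒪)
    (V : Submodule 𝒪 (XQ p t Smin qv 𝒪)) : Prop :=
  IsLocPart (isMid_KQ p (wilesLevel p t Smin Smin) qv) (TsetOf PQ) (UsetOf qv α) V

/-- `h` is `-1/2` modulo the exponent of `Δ_Q`: `p^{m_j} ∣ 2 h + 1` for all `j`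
(for example `h = (∏ p^{m_j} - 1) / 2`). -/
def IsHalf (p : ℕ) {r : ℕ} (qv : Fin r → ℕ) (h : ℕ) : Prop :=
  ∀ j : Fin r, p ^ padicValNat p (qv j - 1) ∣ 2 * h + 1

/-- The action of `T_Q` on `V`: `T_ℓ ↦ ⟨ℓ⟩^h T_ℓ`. -/
def IsQAction (PQ : HeckePkg p 𝒪 ρbar t Smin (Smin ∪ Finset.univ.image qv))
    (V : Submodule 𝒪 (XQ p t Smin qv 𝒪)) (h : ℕ) (a : PQ.T →ₐ[𝒪] Module.End 𝒪 V) : Prop :=
  ActsBy PQ V a (tOpTw (isMid_KQ p (wilesLevel p t Smin Smin) qv) 𝒪 h)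

/-- The plain diamond operator of `a ∈ ∏ (ℤ/q_j)ˣ` on `X_{K_Q}(𝒪)`. -/
noncomputable def diaQ (p : ℕ) (t : PType) (Smin : Finset ℕ) {r : ℕ} (qv : Fin r → ℕ)
    (𝒪 : Type) [CommRing 𝒪] (a : ∀ j : Fin r, (ZMod (qv j))ˣ) (x : XQ p t Smin qv 𝒪) :
    XQ p t Smin qv 𝒪 :=
  diamondU (isMid_KQ p (wilesLevel p t Smin Smin) qv) (liftU (wilesLevel p t Smin Smin) qv a) x

/-- **FREE at `V`**: for primitive roots `g_j`, an `𝒪`-basis of the form `⟨g^e⟩ b_i`. -/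
def FreeAt (V : Submodule 𝒪 (XQ p t Smin qv 𝒪)) : Prop :=
  ∀ g : ∀ j : Fin r, (ZMod (qv j))ˣ, (∀ j, orderOf (g j) = qv j - 1) →
    ∃ (d : ℕ) (b : Fin d → V), ∀ y : V,
      ∃! c : Fin d → (∀ j : Fin r, Fin (p ^ padicValNat p (qv j - 1))) → 𝒪,
        (y : XQ p t Smin qv 𝒪) =
          ∑ i, ∑ e, c i e • diaQ p t Smin qv 𝒪 (fun j => g j ^ (e j : ℕ)) (b i)

/-- **CTRL at `(V₀, V)`**: a surjective `𝒪`-linear map `π : V → V₀`, commuting with the `T_ℓ`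
(`ℓ ∤ M_Q`), whose kernel is the augmentation submodule of the diamond action. -/
def CtrlAt (V₀ : Submodule 𝒪 (Additive (Gamma0 (wilesLevel p t Smin Smin)) →+ 𝒪))
    (V : Submodule 𝒪 (XQ p t Smin qv 𝒪)) : Prop :=
  ∃ π : V →ₗ[𝒪] V₀, Function.Surjective π ∧
    (∀ (ℓ : ℕ) (hℓ : ℓ.Prime), ¬ ℓ ∣ bLevel (wilesLevel p t Smin Smin) qv →
      ∀ v v' : V, (v' : XQ p t Smin qv 𝒪) =
          tOp (bLevel (wilesLevel p t Smin Smin) qv) (KQ p (wilesLevel p t Smin Smin) qv) 𝒪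
            ℓ hℓ v →
        ((π v' : V₀) : Additive (Gamma0 (wilesLevel p t Smin Smin)) →+ 𝒪) =
          tOp (wilesLevel p t Smin Smin) (Gamma0 (wilesLevel p t Smin Smin)) 𝒪 ℓ hℓ (π v)) ∧
    ∀ y : V, π y = 0 ↔
      y ∈ AddSubgroup.closure {z : V | ∃ (a : ∀ j : Fin r, (ZMod (qv j))ˣ) (y' : V),
        (z : XQ p t Smin qv 𝒪) = diaQ p t Smin qv 𝒪 a y' - y'}

/-- **CMP at `(V, a)`**: the comparison of `AutLevel.Cmp`, for the action `a` of `T_Q` on `V` and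
the plain diamond operators. -/
def CmpAt (PQ : HeckePkg p 𝒪 ρbar t Smin (Smin ∪ Finset.univ.image qv))
    (V : Submodule 𝒪 (XQ p t Smin qv 𝒪)) (a : PQ.T →ₐ[𝒪] Module.End 𝒪 V) : Prop :=
  ∀ (j : Fin r) (P : ValuationSubring Qb), P.LiesOverPrime (qv j) →
    ∀ φ : GQ, P.IsFrobeniusAt φ (qv j) →
    ∀ σ ∈ P.inertiaSubgroupIn ℚ, ∀ u : (ZMod (qv j))ˣ, orderOf u = qv j - 1 →
      CycloAt (qv j) σ (u : ZMod (qv j)).val →
      ∀ a₀ w : PQ.T, IsInertiaValue PQ.H.ρ φ σ a₀ w →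
        ∀ y : V, (∃ y' : V, y = a w y' - y') ↔
          ∃ y' : V, (y : XQ p t Smin qv 𝒪) = diaQ p t Smin qv 𝒪 (Pi.mulSingle j u) y' - y'

end LevelQ

/-! ## The leaves, as closed statements -/

/-- **IDEM** (Mathlib + H653).  For every `K` between `Γ₁(M)` and `Γ₀(M)` (`M ≠ 0`) and every
eigen-system, the localisation of `X_K(𝒪)` exists.
(`X_K(𝒪)` is finite free over `𝒪`; the `𝒪`-algebra generated by the operators is commutative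
[`H653.TK_comm`, `TK_UK_comm`, `UK_comm`, `diamond_TK`, `diamond_UK`] and finite over the complete
ring `𝒪`, hence a product of local rings.) -/
def IdemStatement : Prop :=
  ∀ (𝒪 : Type) [CommRing 𝒪] [IsDomain 𝒪] [IsDiscreteValuationRing 𝒪]
    [IsAdicComplete (maximalIdeal 𝒪) 𝒪]
    (M : ℕ) (_hM : M ≠ 0) (K : Subgroup SL(2, ℤ)) (hK : IsMid M K) (Tset Uset : Set (ℕ × 𝒪)),
    (∀ x ∈ Tset, x.1.Prime ∧ ¬ x.1 ∣ M) → (∀ x ∈ Uset, x.1.Prime ∧ x.1 ∣ M) →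
    ∃ V : Submodule 𝒪 (Additive K →+ 𝒪), IsLocPart hK Tset Uset V

/-- **MOD0.**  The Hecke ring `T_min` of the minimal package acts on `V₀`, `T_ℓ ↦ T_ℓ`.
(Eichler–Shimura S21: a relation between the `T_ℓ` on `S₂(Γ₀(N₀))` holds on `Hom(Γ₀(N₀), ℂ)_par`;
`V₀` is cuspidal because `ρ̄` is irreducible; the elements outside the maximal ideal of `θ` act
invertibly on `V₀`.) -/
def Mod0Statement : Prop :=
  ∀ (p : ℕ) [Fact p.Prime]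
    (𝒪 : Type) [CommRing 𝒪] [IsDomain 𝒪] [IsDiscreteValuationRing 𝒪]
    [IsAdicComplete (maximalIdeal 𝒪) 𝒪] [Finite (ResidueField 𝒪)] [CharZero 𝒪]
    (ρbar : ResidualGaloisRep (ResidueField 𝒪)) (Smin : Finset ℕ)
    (_h : ResidualHyp p 𝒪 ρbar Smin) (t : PType)
    (_ht : (t = .flat ∧ (GaloisRepAdic.ofResidualGaloisRep ρbar).IsFlatAt p) ∨
      (t = .sord ∧ (GaloisRepAdic.ofResidualGaloisRep ρbar).IsStrictOrdinaryAt p ∧
        ¬ (GaloisRepAdic.ofResidualGaloisRep ρbar).IsFlatAt p))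
    [NeZero (wilesLevel p t Smin Smin)]
    (P₀ : HeckePkg p 𝒪 ρbar t Smin Smin)
    (V₀ : Submodule 𝒪 (Additive (Gamma0 (wilesLevel p t Smin Smin)) →+ 𝒪)),
    IsMinPart P₀ V₀ → ∃ a₀ : P₀.T →ₐ[𝒪] Module.End 𝒪 V₀, IsMinAction P₀ V₀ a₀

/-- **NONTRIV.**  `V₀ ≠ 0`: the eigen-system `θ` of the package occurs in `X_{Γ₀(N₀)}(𝒪)`.
(The Hecke algebra acts faithfully on `S₂(Γ₀(N₀))`, hence on `Hom(Γ₀(N₀), ℤ)_par` by S21.) -/
def NontrivStatement : Prop :=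
  ∀ (p : ℕ) [Fact p.Prime]
    (𝒪 : Type) [CommRing 𝒪] [IsDomain 𝒪] [IsDiscreteValuationRing 𝒪]
    [IsAdicComplete (maximalIdeal 𝒪) 𝒪] [Finite (ResidueField 𝒪)] [CharZero 𝒪]
    (ρbar : ResidualGaloisRep (ResidueField 𝒪)) (Smin : Finset ℕ)
    (_h : ResidualHyp p 𝒪 ρbar Smin) (t : PType)
    (_ht : (t = .flat ∧ (GaloisRepAdic.ofResidualGaloisRep ρbar).IsFlatAt p) ∨
      (t = .sord ∧ (GaloisRepAdic.ofResidualGaloisRep ρbar).IsStrictOrdinaryAt p ∧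
        ¬ (GaloisRepAdic.ofResidualGaloisRep ρbar).IsFlatAt p))
    [NeZero (wilesLevel p t Smin Smin)]
    (P₀ : HeckePkg p 𝒪 ρbar t Smin Smin)
    (V₀ : Submodule 𝒪 (Additive (Gamma0 (wilesLevel p t Smin Smin)) →+ 𝒪)),
    IsMinPart P₀ V₀ → Nontrivial V₀

/-- **MODQ.**  The Hecke ring `T_Q = heckeLocal (N₀ Q²)` acts on `V ⊆ X_{K_Q}(𝒪)` through the
twisted operators `⟨ℓ⟩^h T_ℓ`, for a suitable `h` with `2 h ≡ -1` modulo the exponent of `Δ_Q`.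
(TW-ES: Eichler–Shimura for `K_Q` [helper658]; TW-TWIST: `f ↦ f ⊗ ψ^{-1/2}` from
`S₂(Γ₀(M_Q), ψ)` to `S₂(Γ₀(N₀ Q²))` [helper564]; semisimplicity of the `T_ℓ`.) -/
def ModQStatement : Prop :=
  ∀ (p : ℕ) [Fact p.Prime]
    (𝒪 : Type) [CommRing 𝒪] [IsDomain 𝒪] [IsDiscreteValuationRing 𝒪]
    [IsAdicComplete (maximalIdeal 𝒪) 𝒪] [Finite (ResidueField 𝒪)] [CharZero 𝒪]
    (ρbar : ResidualGaloisRep (ResidueField 𝒪)) (Smin : Finset ℕ)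
    (_h : ResidualHyp p 𝒪 ρbar Smin) (t : PType)
    (_ht : (t = .flat ∧ (GaloisRepAdic.ofResidualGaloisRep ρbar).IsFlatAt p) ∨
      (t = .sord ∧ (GaloisRepAdic.ofResidualGaloisRep ρbar).IsStrictOrdinaryAt p ∧
        ¬ (GaloisRepAdic.ofResidualGaloisRep ρbar).IsFlatAt p))
    [NeZero (wilesLevel p t Smin Smin)]
    (P₀ : HeckePkg p 𝒪 ρbar t Smin Smin)
    (n r : ℕ) (qv : Fin r → ℕ) (_hq : IsTWSet p ρbar Smin n qv)
    [NeZero (wilesLevel p t Smin (Smin ∪ Finset.univ.image qv))]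
    (PQ : HeckePkg p 𝒪 ρbar t Smin (Smin ∪ Finset.univ.image qv))
    (res : PQ.T →ₐ[𝒪] P₀.T) (_hres : IsRestriction P₀ PQ res)
    (α : Fin r → 𝒪) (_hα : IsFrobLift ρbar qv α)
    (V : Submodule 𝒪 (XQ p t Smin qv 𝒪)),
    IsQPart PQ α V →
      ∃ (h : ℕ) (a : PQ.T →ₐ[𝒪] Module.End 𝒪 V), IsHalf p qv h ∧ IsQAction PQ V h a

/-- **FREE.**  `V` is free over `𝒪[Δ_Q]`: it has an `𝒪`-basis `⟨g^e⟩ b_i`.
(`MFree.free` at `κ = kappa`, `e` = the projector of `V`, `t = T_l` for an auxiliary prime `l`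
with `θ(T_l) ≠ l + 1`.  Hypothesis (Ell) of `MFree.free` — the elements of finite order of
`Γ₀(M_Q)` lie in `K_Q` — holds if `p ≥ 5` or if `N₀` has a prime factor `≡ 2` modulo `3`; in the
remaining case `p = 3` pass to an auxiliary level `Γ₀(M_Q r)`.) -/
def FreeQStatement : Prop :=
  ∀ (p : ℕ) [Fact p.Prime]
    (𝒪 : Type) [CommRing 𝒪] [IsDomain 𝒪] [IsDiscreteValuationRing 𝒪]
    [IsAdicComplete (maximalIdeal 𝒪) 𝒪] [Finite (ResidueField 𝒪)] [CharZero 𝒪]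
    (ρbar : ResidualGaloisRep (ResidueField 𝒪)) (Smin : Finset ℕ)
    (_h : ResidualHyp p 𝒪 ρbar Smin) (t : PType)
    (_ht : (t = .flat ∧ (GaloisRepAdic.ofResidualGaloisRep ρbar).IsFlatAt p) ∨
      (t = .sord ∧ (GaloisRepAdic.ofResidualGaloisRep ρbar).IsStrictOrdinaryAt p ∧
        ¬ (GaloisRepAdic.ofResidualGaloisRep ρbar).IsFlatAt p))
    [NeZero (wilesLevel p t Smin Smin)]
    (P₀ : HeckePkg p 𝒪 ρbar t Smin Smin)
    (n r : ℕ) (qv : Fin r → ℕ) (_hq : IsTWSet p ρbar Smin n qv)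
    [NeZero (wilesLevel p t Smin (Smin ∪ Finset.univ.image qv))]
    (PQ : HeckePkg p 𝒪 ρbar t Smin (Smin ∪ Finset.univ.image qv))
    (res : PQ.T →ₐ[𝒪] P₀.T) (_hres : IsRestriction P₀ PQ res)
    (α : Fin r → 𝒪) (_hα : IsFrobLift ρbar qv α)
    (V : Submodule 𝒪 (XQ p t Smin qv 𝒪)),
    IsQPart PQ α V → FreeAt V

/-- **CTRL.**  `V / I_Δ V ≅ V₀`.
(`MFree.free`: `ker (cor | V) = I_Δ V` and `cor` is onto; TW-CTRL [helper105]: the localisation of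
`X_{Γ₀(M_Q)}(𝒪)` at `(θ, U_q - α)` is isomorphic to `V₀` by the transfers `t₂`.) -/
def CtrlStatement : Prop :=
  ∀ (p : ℕ) [Fact p.Prime]
    (𝒪 : Type) [CommRing 𝒪] [IsDomain 𝒪] [IsDiscreteValuationRing 𝒪]
    [IsAdicComplete (maximalIdeal 𝒪) 𝒪] [Finite (ResidueField 𝒪)] [CharZero 𝒪]
    (ρbar : ResidualGaloisRep (ResidueField 𝒪)) (Smin : Finset ℕ)
    (_h : ResidualHyp p 𝒪 ρbar Smin) (t : PType)
    (_ht : (t = .flat ∧ (GaloisRepAdic.ofResidualGaloisRep ρbar).IsFlatAt p) ∨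
      (t = .sord ∧ (GaloisRepAdic.ofResidualGaloisRep ρbar).IsStrictOrdinaryAt p ∧
        ¬ (GaloisRepAdic.ofResidualGaloisRep ρbar).IsFlatAt p))
    [NeZero (wilesLevel p t Smin Smin)]
    (P₀ : HeckePkg p 𝒪 ρbar t Smin Smin)
    (n r : ℕ) (qv : Fin r → ℕ) (_hq : IsTWSet p ρbar Smin n qv)
    [NeZero (wilesLevel p t Smin (Smin ∪ Finset.univ.image qv))]
    (PQ : HeckePkg p 𝒪 ρbar t Smin (Smin ∪ Finset.univ.image qv))
    (res : PQ.T →ₐ[𝒪] P₀.T) (_hres : IsRestriction P₀ PQ res)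
    (α : Fin r → 𝒪) (_hα : IsFrobLift ρbar qv α)
    (V₀ : Submodule 𝒪 (Additive (Gamma0 (wilesLevel p t Smin Smin)) →+ 𝒪))
    (V : Submodule 𝒪 (XQ p t Smin qv 𝒪)),
    IsMinPart P₀ V₀ → IsQPart PQ α V → CtrlAt V₀ V

/-- **CMP.**  The comparison of the Galois and the diamond structure on `V`.
(Route TW-ALG, helper314 `TW/H314/CmpTR.lean`: (T) `(w - 1) V ⊆ (⟨u⟩_j - 1) V` and (R).) -/
def CmpStatement : Prop :=
  ∀ (p : ℕ) [Fact p.Prime]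
    (𝒪 : Type) [CommRing 𝒪] [IsDomain 𝒪] [IsDiscreteValuationRing 𝒪]
    [IsAdicComplete (maximalIdeal 𝒪) 𝒪] [Finite (ResidueField 𝒪)] [CharZero 𝒪]
    (ρbar : ResidualGaloisRep (ResidueField 𝒪)) (Smin : Finset ℕ)
    (_h : ResidualHyp p 𝒪 ρbar Smin) (t : PType)
    (_ht : (t = .flat ∧ (GaloisRepAdic.ofResidualGaloisRep ρbar).IsFlatAt p) ∨
      (t = .sord ∧ (GaloisRepAdic.ofResidualGaloisRep ρbar).IsStrictOrdinaryAt p ∧
        ¬ (GaloisRepAdic.ofResidualGaloisRep ρbar).IsFlatAt p))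
    [NeZero (wilesLevel p t Smin Smin)]
    (P₀ : HeckePkg p 𝒪 ρbar t Smin Smin)
    (n r : ℕ) (qv : Fin r → ℕ) (_hq : IsTWSet p ρbar Smin n qv)
    [NeZero (wilesLevel p t Smin (Smin ∪ Finset.univ.image qv))]
    (PQ : HeckePkg p 𝒪 ρbar t Smin (Smin ∪ Finset.univ.image qv))
    (res : PQ.T →ₐ[𝒪] P₀.T) (_hres : IsRestriction P₀ PQ res)
    (α : Fin r → 𝒪) (_hα : IsFrobLift ρbar qv α)
    (V : Submodule 𝒪 (XQ p t Smin qv 𝒪)) (h : ℕ) (a : PQ.T →ₐ[𝒪] Module.End 𝒪 V),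
    IsQPart PQ α V → IsHalf p qv h → IsQAction PQ V h a → CmpAt PQ V a

end Fermat.Agent.S59.TW.Aut
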