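import Fermat.Agent.S59.TW.Aut.SkelLemmas

/-!
# Row S59 / row 37, cell TW, layer 3 (AUT): the glue (helper511)

`aut_of_leaves : IdemStatement → Mod0Statement → NontrivStatement → ModQStatement →
  FreeQStatement → CtrlStatement → CmpStatement → TW.AutStatement`.
-/

set_option autoImplicit false

open Polynomial IsLocalRing CongruenceSubgroup
open scoped MatrixGroups

namespace Fermat.Agent.S59.TW.Aut

open Fermat.Agent.S59.Arch Fermat.Agent.S59.TW.H959 Fermat.Agent.S59.TW.H653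

/-! ## A submodule with a Hecke action -/

section ModOf

variable {𝒪 : Type} [CommRing 𝒪] {T : Type} [CommRing T] [Algebra 𝒪 T]
  {X : Type} [AddCommGroup X] [Module 𝒪 X]

/-- The submodule `V` with the action of `T` through `a : T →ₐ[𝒪] End_𝒪 V`. -/
def ModOf (V : Submodule 𝒪 X) (_a : T →ₐ[𝒪] Module.End 𝒪 V) : Type := V

variable (V : Submodule 𝒪 X) (a : T →ₐ[𝒪] Module.End 𝒪 V)

instance ModOf.instAddCommGroup : AddCommGroup (ModOf V a) := inferInstanceAs (AddCommGroup V)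

instance ModOf.instModule : Module T (ModOf V a) :=
  Module.compHom V (a : T →+* Module.End 𝒪 V)

/-- the underlying element of `V` -/
def ModOf.val (y : ModOf V a) : V := y

/-- an element of `V` as an element of `ModOf V a` -/
def ModOf.mk (v : V) : ModOf V a := v

@[simp] theorem ModOf.val_mk (v : V) : ModOf.val V a (ModOf.mk V a v) = v := rfl

@[simp] theorem ModOf.mk_val (y : ModOf V a) : ModOf.mk V a (ModOf.val V a y) = y := rfl

theorem ModOf.val_smul (s : T) (y : ModOf V a) :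
    ModOf.val V a (s • y) = a s (ModOf.val V a y) := rfl

theorem ModOf.val_add (y z : ModOf V a) :
    ModOf.val V a (y + z) = ModOf.val V a y + ModOf.val V a z := rfl

theorem ModOf.val_sub (y z : ModOf V a) :
    ModOf.val V a (y - z) = ModOf.val V a y - ModOf.val V a z := rfl

theorem ModOf.val_zero : ModOf.val V a 0 = 0 := rfl

theorem ModOf.val_injective : Function.Injective (ModOf.val V a) := fun _ _ h => h

theorem ModOf.val_algebraMap_smul (c : 𝒪) (y : ModOf V a) :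
    ModOf.val V a (algebraMap 𝒪 T c • y) = c • ModOf.val V a y := by
  rw [ModOf.val_smul, AlgHom.commutes]
  rfl

theorem ModOf.val_sum {ι : Type} (s : Finset ι) (f : ι → ModOf V a) :
    ModOf.val V a (∑ i ∈ s, f i) = ∑ i ∈ s, ModOf.val V a (f i) := by
  classical
  induction s using Finset.induction_on with
  | empty => rfl
  | insert i s hi ih =>
    rw [Finset.sum_insert hi, Finset.sum_insert hi, ModOf.val_add, ih]

end ModOf

/-! ## Arithmetic of the levels -/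

section Arith

variable {p : ℕ} {t : PType} {Smin : Finset ℕ} {r : ℕ} {qv : Fin r → ℕ}

theorem wilesLevel_min_dvd (p : ℕ) (t : PType) (Smin Sig : Finset ℕ) :
    wilesLevel p t Smin Smin ∣ wilesLevel p t Smin Sig := by
  rw [wilesLevel_eq, wilesLevel_eq, Finset.sdiff_self, Finset.prod_empty, mul_one]
  exact mul_dvd_mul_right (Dvd.intro _ rfl) _

theorem not_dvd_bLevel {ℓ : ℕ} (hℓ : ℓ.Prime) (hprime : ∀ j, (qv j).Prime)
    (hℓN : ¬ ℓ ∣ wilesLevel p t Smin (Smin ∪ Finset.univ.image qv))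
    (hℓS : ℓ ∉ (↑(Smin ∪ Finset.univ.image qv) : Set ℕ)) :
    ¬ ℓ ∣ bLevel (wilesLevel p t Smin Smin) qv := by
  intro h
  rcases (Nat.Prime.dvd_mul hℓ).mp h with h1 | h1
  · exact hℓN (h1.trans (wilesLevel_min_dvd p t Smin _))
  · obtain ⟨j, -, hj⟩ := (Prime.dvd_finset_prod_iff (Nat.Prime.prime hℓ) _).mp h1
    have : ℓ = qv j := (Nat.prime_dvd_prime_iff_eq hℓ (hprime j)).mp hj
    apply hℓS
    rw [this]
    exact Finset.mem_coe.mpr (Finset.mem_union_right _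
      (Finset.mem_image_of_mem qv (Finset.mem_univ j)))

end Arith

/-! ## Stability of the localisation -/

section Stable

variable {M : ℕ} {K : Subgroup SL(2, ℤ)} {hK : IsMid M K}
  {𝒪 : Type} [CommRing 𝒪] [IsLocalRing 𝒪] {Tset Uset : Set (ℕ × 𝒪)}
  {V : Submodule 𝒪 (Additive K →+ 𝒪)}

theorem IsLocPart.diamondU_mem (hV : IsLocPart hK Tset Uset V) (u : (ZMod M)ˣ)
    {x : Additive K →+ 𝒪} (hx : x ∈ V) : diamondU hK u x ∈ V := by
  obtain ⟨e, -, he2, he3, -, -, he6, -⟩ := hV.exists_proj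
  have h1 : diamondU hK u x = e (diamondU hK u x) := by
    rw [he6 u x, he3 x hx]
  rw [h1]
  exact he2 _

theorem IsLocPart.tOp_mem (hV : IsLocPart hK Tset Uset V) {ℓ : ℕ} (hℓ : ℓ.Prime)
    (hℓM : ¬ ℓ ∣ M) {x : Additive K →+ 𝒪} (hx : x ∈ V) : tOp M K 𝒪 ℓ hℓ x ∈ V := by
  obtain ⟨e, -, he2, he3, he4, -, -, -⟩ := hV.exists_proj
  have : Fact ℓ.Prime := ⟨hℓ⟩
  have h1 : tOp M K 𝒪 ℓ hℓ x = e (tOp M K 𝒪 ℓ hℓ x) := by
    have := he4 ℓ hℓM x
    rw [he3 x hx] at this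
    exact this.symm
  rw [h1]
  exact he2 _

end Stable

theorem diamondU_smul {M : ℕ} {K : Subgroup SL(2, ℤ)} (hK : IsMid M K) {𝒪 : Type} [CommRing 𝒪]
    (u : (ZMod M)ˣ) (c : 𝒪) (x : Additive K →+ 𝒪) :
    diamondU hK u (c • x) = c • diamondU hK u x := rfl

/-! ## The diamond action of `∏ (ℤ/q_j)ˣ` -/

section DiaQ

variable (p : ℕ) (t : PType) (Smin : Finset ℕ) {r : ℕ} (qv : Fin r → ℕ)
  (𝒪 : Type) [CommRing 𝒪]

theorem diaQ_one [NeZero (bLevel (wilesLevel p t Smin Smin) qv)] (x : XQ p t Smin qv 𝒪) :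
    diaQ p t Smin qv 𝒪 1 x = x := by
  unfold diaQ
  apply diamondU_of_chi
  have h1 := red_liftU (wilesLevel p t Smin Smin) qv (a := 1) ⟨1, map_one _⟩
  unfold chi
  rw [MonoidHom.comp_apply, h1, map_one]

theorem diaQ_mul [NeZero (bLevel (wilesLevel p t Smin Smin) qv)]
    (hsurj : Function.Surjective (red (wilesLevel p t Smin Smin) qv))
    (u u' : ∀ j : Fin r, (ZMod (qv j))ˣ) (x : XQ p t Smin qv 𝒪) :
    diaQ p t Smin qv 𝒪 (u * u') x = diaQ p t Smin qv 𝒪 u (diaQ p t Smin qv 𝒪 u' x) := by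
  unfold diaQ
  rw [← diamondU_mul]
  apply diamondU_eq_of_chi
  apply chi_eq_of_red
  rw [map_mul, red_liftU _ _ (hsurj u), red_liftU _ _ (hsurj u'), red_liftU _ _ (hsurj (u * u'))]

theorem diaQ_pow [NeZero (bLevel (wilesLevel p t Smin Smin) qv)]
    (hsurj : Function.Surjective (red (wilesLevel p t Smin Smin) qv))
    (u : ∀ j : Fin r, (ZMod (qv j))ˣ) (x : XQ p t Smin qv 𝒪) :
    diaQ p t Smin qv 𝒪 (fun j => u j ^ p ^ padicValNat p (qv j - 1)) x = x := by
  unfold diaQ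
  apply diamondU_of_chi
  unfold chi
  rw [MonoidHom.comp_apply, red_liftU _ _ (hsurj _)]
  rw [QuotientGroup.mk'_apply, QuotientGroup.eq_one_iff]
  unfold powSub
  rw [Subgroup.mem_pi]
  intro j _
  exact ⟨u j, rfl⟩

end DiaQ

/-! ## The automorphic level from the leaves -/

section Build

variable {p : ℕ} [hpF : Fact p.Prime]
  {𝒪 : Type} [CommRing 𝒪] [IsDomain 𝒪] [IsDiscreteValuationRing 𝒪]
  [IsAdicComplete (maximalIdeal 𝒪) 𝒪]
  {ρbar : ResidualGaloisRep (ResidueField 𝒪)} {t : PType} {Smin : Finset ℕ}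
  [NeZero (wilesLevel p t Smin Smin)]
  {r : ℕ} {qv : Fin r → ℕ}
  [NeZero (wilesLevel p t Smin (Smin ∪ Finset.univ.image qv))]

/-- The restricted diamond operator on `V`. -/
noncomputable def diaV {PQ : HeckePkg p 𝒪 ρbar t Smin (Smin ∪ Finset.univ.image qv)}
    {α : Fin r → 𝒪} {V : Submodule 𝒪 (XQ p t Smin qv 𝒪)} (hV : IsQPart PQ α V)
    (u : ∀ j : Fin r, (ZMod (qv j))ˣ) : V →ₗ[𝒪] V where
  toFun v := ⟨diaQ p t Smin qv 𝒪 u v, hV.diamondU_mem _ v.2⟩
  map_add' v w := Subtype.ext (diamondU_add _ _ _ _)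
  map_smul' c v := Subtype.ext (diamondU_smul _ _ c _)

theorem coe_diaV {PQ : HeckePkg p 𝒪 ρbar t Smin (Smin ∪ Finset.univ.image qv)}
    {α : Fin r → 𝒪} {V : Submodule 𝒪 (XQ p t Smin qv 𝒪)} (hV : IsQPart PQ α V)
    (u : ∀ j : Fin r, (ZMod (qv j))ˣ) (v : V) :
    ((diaV hV u v : V) : XQ p t Smin qv 𝒪) = diaQ p t Smin qv 𝒪 u v := rfl

variable (P₀ : HeckePkg p 𝒪 ρbar t Smin Smin)
  (PQ : HeckePkg p 𝒪 ρbar t Smin (Smin ∪ Finset.univ.image qv))
  (res : PQ.T →ₐ[𝒪] P₀.T) (α : Fin r → 𝒪)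
  (V₀ : Submodule 𝒪 (Additive (Gamma0 (wilesLevel p t Smin Smin)) →+ 𝒪))
  (a₀ : P₀.T →ₐ[𝒪] Module.End 𝒪 V₀)
  (V : Submodule 𝒪 (XQ p t Smin qv 𝒪)) (h : ℕ) (a : PQ.T →ₐ[𝒪] Module.End 𝒪 V)

include hpF in
/-- The restricted diamond operators commute with the action of `T_Q`. -/
theorem diaV_comm (hS : ∀ q ∈ Smin, q.Prime) (hpS : p ∈ Smin) (hprime : ∀ j, (qv j).Prime)
    (hV : IsQPart PQ α V) (ha : IsQAction PQ V h a) (u : ∀ j : Fin r, (ZMod (qv j))ˣ)
    (s : PQ.T) (v : V) : diaV hV u (a s v) = a s (diaV hV u v) := by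
  have hSig : ∀ q ∈ Smin ∪ Finset.univ.image qv, q.Prime := by
    intro q hq
    rcases Finset.mem_union.mp hq with h' | h'
    · exact hS q h'
    · obtain ⟨j, -, rfl⟩ := Finset.mem_image.mp h'
      exact hprime j
  revert v
  refine pkg_induction PQ (fun q hq hqN => Finset.mem_coe.mpr
    (mem_of_prime_dvd_wilesLevel hpF.out hS hSig hpS Finset.subset_union_left q hq hqN))
    (fun s => ∀ v : V, diaV hV u (a s v) = a s (diaV hV u v)) ?_ ?_ ?_ ?_ s
  · intro c v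
    rw [AlgHom.commutes]
    exact (diaV hV u).map_smul c v
  · intro x y hx hy v
    rw [map_add, LinearMap.add_apply, map_add, hx, hy, LinearMap.add_apply]
  · intro x y hx hy v
    rw [map_mul, Module.End.mul_apply, hx, hy, Module.End.mul_apply]
  · intro ℓ hℓ hℓN hℓS v
    have hℓM := not_dvd_bLevel hℓ hprime hℓN hℓS
    have : Fact ℓ.Prime := ⟨hℓ⟩
    apply Subtype.ext
    rw [coe_diaV, ha ℓ hℓ hℓN hℓS v, ha ℓ hℓ hℓN hℓS (diaV hV u v), coe_diaV]
    unfold tOpTw tOp diaQ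
    have h1 := diamondU_TK (isMid_KQ p (wilesLevel p t Smin Smin) qv) hℓM
      (liftU (wilesLevel p t Smin Smin) qv u) (v : XQ p t Smin qv 𝒪)
    rw [h1]
    have hM : NeZero (bLevel (wilesLevel p t Smin Smin) qv) :=
      ⟨Nat.mul_ne_zero (NeZero.ne _) (Finset.prod_ne_zero_iff.mpr fun j _ => (hprime j).ne_zero)⟩
    rw [← diamondU_mul, ← diamondU_mul, mul_comm]

include hpF in
/-- `π` is semilinear over `res`. -/
theorem pi_semilinear (hS : ∀ q ∈ Smin, q.Prime) (hpS : p ∈ Smin)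
    (hinj : Function.Injective qv) (hprime : ∀ j, (qv j).Prime)
    (hqS : ∀ j, qv j ∉ Smin) (hres : IsRestriction P₀ PQ res)
    (hV₀ : IsMinPart P₀ V₀) (ha₀ : IsMinAction P₀ V₀ a₀)
    (hV : IsQPart PQ α V) (ha : IsQAction PQ V h a)
    (π : V →ₗ[𝒪] V₀)
    (hπT : ∀ (ℓ : ℕ) (hℓ : ℓ.Prime), ¬ ℓ ∣ bLevel (wilesLevel p t Smin Smin) qv →
      ∀ v v' : V, (v' : XQ p t Smin qv 𝒪) =
          tOp (bLevel (wilesLevel p t Smin Smin) qv) (KQ p (wilesLevel p t Smin Smin) qv) 𝒪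
            ℓ hℓ v →
        ((π v' : V₀) : Additive (Gamma0 (wilesLevel p t Smin Smin)) →+ 𝒪) =
          tOp (wilesLevel p t Smin Smin) (Gamma0 (wilesLevel p t Smin Smin)) 𝒪 ℓ hℓ (π v))
    (hker : ∀ y : V, π y = 0 ↔
      y ∈ AddSubgroup.closure {z : V | ∃ (a : ∀ j : Fin r, (ZMod (qv j))ˣ) (y' : V),
        (z : XQ p t Smin qv 𝒪) = diaQ p t Smin qv 𝒪 a y' - y'})
    (s : PQ.T) (v : V) : π (a s v) = a₀ (res s) (π v) := by
  have hSig : ∀ q ∈ Smin ∪ Finset.univ.image qv, q.Prime := by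
    intro q hq
    rcases Finset.mem_union.mp hq with h' | h'
    · exact hS q h'
    · obtain ⟨j, -, rfl⟩ := Finset.mem_image.mp h'
      exact hprime j
  have hM : NeZero (bLevel (wilesLevel p t Smin Smin) qv) :=
    ⟨Nat.mul_ne_zero (NeZero.ne _) (Finset.prod_ne_zero_iff.mpr fun j _ => (hprime j).ne_zero)⟩
  revert v
  refine pkg_induction PQ (fun q hq hqN => Finset.mem_coe.mpr
    (mem_of_prime_dvd_wilesLevel hpF.out hS hSig hpS Finset.subset_union_left q hq hqN))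
    (fun s => ∀ v : V, π (a s v) = a₀ (res s) (π v)) ?_ ?_ ?_ ?_ s
  · intro c v
    rw [AlgHom.commutes, AlgHom.commutes, AlgHom.commutes]
    exact π.map_smul c v
  · intro x y hx hy v
    rw [map_add, LinearMap.add_apply, map_add, hx, hy, map_add, map_add, LinearMap.add_apply]
  · intro x y hx hy v
    rw [map_mul, Module.End.mul_apply, hx, hy, map_mul, map_mul, Module.End.mul_apply]
  · intro ℓ hℓ hℓN hℓS v
    have hℓM := not_dvd_bLevel hℓ hprime hℓN hℓS
    have hℓN₀ : ¬ ℓ ∣ wilesLevel p t Smin Smin := fun hd =>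
      hℓN (hd.trans (wilesLevel_min_dvd p t Smin _))
    have hℓS₀ : ℓ ∉ (↑Smin : Set ℕ) := fun hm =>
      hℓS (Finset.mem_coe.mpr (Finset.mem_union_left _ (Finset.mem_coe.mp hm)))
    rw [hres ℓ hℓ hℓN hℓS hℓN₀ hℓS₀]
    apply Subtype.ext
    rw [ha₀ ℓ hℓ hℓN₀ hℓS₀ (π v)]
    -- the element `T_ℓ v` of `V`
    set v'' : V := ⟨tOp (bLevel (wilesLevel p t Smin Smin) qv)
      (KQ p (wilesLevel p t Smin Smin) qv) 𝒪 ℓ hℓ v, hV.tOp_mem hℓ hℓM v.2⟩ with hv''
    rw [← hπT ℓ hℓ hℓM v v'' rfl]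
    congr 1
    -- `a (T_ℓ) v - T_ℓ v` lies in the augmentation submodule
    have hdiff : π (a (PQ.H.π (CuspForm.heckeAlgebra.T hℓ hℓN hℓS)) v - v'') = 0 := by
      rw [hker]
      apply AddSubgroup.subset_closure
      refine ⟨red (wilesLevel p t Smin Smin) qv
        (uOf (bLevel (wilesLevel p t Smin Smin) qv) ℓ ^ h), v'', ?_⟩
      rw [Submodule.coe_sub, ha ℓ hℓ hℓN hℓS v]
      unfold tOpTw diaQ
      rw [diamondU_eq_of_chi p (wilesLevel p t Smin Smin) qv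
        (chi_eq_of_red p (wilesLevel p t Smin Smin) qv
          (red_liftU (wilesLevel p t Smin Smin) qv ⟨_, rfl⟩))]
    have h3 : π (a (PQ.H.π (CuspForm.heckeAlgebra.T hℓ hℓN hℓS)) v) - π v'' = 0 := by
      rw [← hdiff]
      exact (map_sub π _ _).symm
    exact sub_eq_zero.mp h3

/-- The diamond action on `ModOf V a`, linear over `T_Q`. -/
noncomputable def diaT (hcomm : ∀ (hV : IsQPart PQ α V) (u : ∀ j : Fin r, (ZMod (qv j))ˣ)
      (s : PQ.T) (v : V), diaV hV u (a s v) = a s (diaV hV u v))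
    (hV : IsQPart PQ α V) (u : ∀ j : Fin r, (ZMod (qv j))ˣ) :
    Module.End PQ.T (ModOf V a) where
  toFun y := ModOf.mk V a (diaV hV u (ModOf.val V a y))
  map_add' y z := (diaV hV u).map_add _ _
  map_smul' s y := hcomm hV u s (ModOf.val V a y)

theorem val_diaT (hcomm : ∀ (hV : IsQPart PQ α V) (u : ∀ j : Fin r, (ZMod (qv j))ˣ)
      (s : PQ.T) (v : V), diaV hV u (a s v) = a s (diaV hV u v))
    (hV : IsQPart PQ α V) (u : ∀ j : Fin r, (ZMod (qv j))ˣ) (y : ModOf V a) :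
    ((ModOf.val V a (diaT PQ α V a hcomm hV u y) : V) : XQ p t Smin qv 𝒪) =
      diaQ p t Smin qv 𝒪 u (ModOf.val V a y : V) := rfl

/-- The comparison on `ModOf V a`. -/
theorem cmp_modOf (hcomm : ∀ (hV : IsQPart PQ α V) (u : ∀ j : Fin r, (ZMod (qv j))ˣ)
      (s : PQ.T) (v : V), diaV hV u (a s v) = a s (diaV hV u v))
    (hV : IsQPart PQ α V) (hcmp : CmpAt PQ V a)
    (j : Fin r) (P : ValuationSubring Qb) (hP : P.LiesOverPrime (qv j))
    (φ : GQ) (hφ : P.IsFrobeniusAt φ (qv j))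
    (σ : GQ) (hσ : σ ∈ P.inertiaSubgroupIn ℚ) (u : (ZMod (qv j))ˣ) (hu : orderOf u = qv j - 1)
    (hcyc : CycloAt (qv j) σ (u : ZMod (qv j)).val)
    (a₀' w : PQ.T) (hw : IsInertiaValue PQ.H.ρ φ σ a₀' w) (y : ModOf V a) :
    (∃ y' : ModOf V a, y = w • y' - y') ↔
      ∃ y' : ModOf V a, y = diaT PQ α V a hcomm hV (Pi.mulSingle j u) y' - y' := by
  have := hcmp j P hP φ hφ σ hσ u hu hcyc a₀' w hw (ModOf.val V a y)
  constructor
  · rintro ⟨y', hy'⟩
    obtain ⟨z, hz⟩ := this.mp ⟨ModOf.val V a y', congrArg (ModOf.val V a) hy'⟩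
    exact ⟨ModOf.mk V a z, Subtype.ext hz⟩
  · rintro ⟨y', hy'⟩
    obtain ⟨z, hz⟩ := this.mpr ⟨ModOf.val V a y',
      congrArg (fun x : ModOf V a => ((ModOf.val V a x : V) : XQ p t Smin qv 𝒪)) hy'⟩
    exact ⟨ModOf.mk V a z, hz⟩

include hpF in
/-- **The automorphic level from the leaves at `(V₀, V)`.** -/
theorem exists_autLevel (hS : ∀ q ∈ Smin, q.Prime) (hpS : p ∈ Smin)
    (hinj : Function.Injective qv) (hprime : ∀ j, (qv j).Prime)
    (hqS : ∀ j, qv j ∉ Smin) (hres : IsRestriction P₀ PQ res)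
    (hV₀ : IsMinPart P₀ V₀) (ha₀ : IsMinAction P₀ V₀ a₀)
    (hV : IsQPart PQ α V) (ha : IsQAction PQ V h a)
    (hfree : FreeAt V) (hctrl : CtrlAt V₀ V) (hcmp : CmpAt PQ V a) :
    ∃ A : AutLevel P₀ (ModOf V₀ a₀) qv PQ res, A.Cmp := by
  obtain ⟨π, hsurj, hπT, hker⟩ := hctrl
  have hM : NeZero (bLevel (wilesLevel p t Smin Smin) qv) :=
    ⟨Nat.mul_ne_zero (NeZero.ne _) (Finset.prod_ne_zero_iff.mpr fun j _ => (hprime j).ne_zero)⟩
  have hred := red_surjective (wilesLevel p t Smin Smin) qv (NeZero.ne _) hinj hprime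
  have hcomm : ∀ (hV : IsQPart PQ α V) (u : ∀ j : Fin r, (ZMod (qv j))ˣ)
      (s : PQ.T) (v : V), diaV hV u (a s v) = a s (diaV hV u v) :=
    fun hV' u s v => diaV_comm PQ α V h a hS hpS hprime hV' ha u s v
  let D : (∀ j : Fin r, (ZMod (qv j))ˣ) →* Module.End PQ.T (ModOf V a) :=
    { toFun := fun u => diaT PQ α V a hcomm hV u
      map_one' := by
        refine LinearMap.ext fun y => ?_
        apply ModOf.val_injective
        apply Subtype.ext
        rw [val_diaT]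
        exact diaQ_one p t Smin qv 𝒪 _
      map_mul' := by
        intro u u'
        refine LinearMap.ext fun y => ?_
        apply ModOf.val_injective
        apply Subtype.ext
        rw [val_diaT, Module.End.mul_apply, val_diaT, val_diaT]
        exact diaQ_mul p t Smin qv 𝒪 hred u u' _ }
  have hD : ∀ u y, ((ModOf.val V a (D u y) : V) : XQ p t Smin qv 𝒪) =
      diaQ p t Smin qv 𝒪 u (ModOf.val V a y : V) := fun u y => rfl
  refine ⟨{ MQ := ModOf V a
            dia := D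
            dia_pow := ?_
            free := ?_
            π := (π : V →+ V₀)
            π_smul := ?_
            π_surjective := hsurj
            ker_π := ?_ }, ?_⟩
  · -- dia_pow
    intro u
    refine LinearMap.ext fun y => ?_
    apply ModOf.val_injective
    apply Subtype.ext
    rw [hD]
    exact diaQ_pow p t Smin qv 𝒪 hred u _
  · -- free
    intro g hg
    obtain ⟨d, b, hb⟩ := hfree g hg
    refine ⟨d, fun i => ModOf.mk V a (b i), fun y => ?_⟩
    have key : ∀ c : Fin d → (∀ j : Fin r, Fin (p ^ padicValNat p (qv j - 1))) → 𝒪,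
        (y = ∑ i, ∑ e, algebraMap 𝒪 PQ.T (c i e) •
            D (fun j => g j ^ (e j : ℕ)) (ModOf.mk V a (b i))) ↔
        ((ModOf.val V a y : V) : XQ p t Smin qv 𝒪) =
          ∑ i, ∑ e, c i e • diaQ p t Smin qv 𝒪 (fun j => g j ^ (e j : ℕ)) (b i) := by
      intro c
      have hsum : ((ModOf.val V a (∑ i, ∑ e, algebraMap 𝒪 PQ.T (c i e) •
            D (fun j => g j ^ (e j : ℕ)) (ModOf.mk V a (b i))) : V) : XQ p t Smin qv 𝒪) =
          ∑ i, ∑ e, c i e • diaQ p t Smin qv 𝒪 (fun j => g j ^ (e j : ℕ)) (b i) := by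
        rw [ModOf.val_sum, Submodule.coe_sum]
        refine Finset.sum_congr rfl fun i _ => ?_
        rw [ModOf.val_sum, Submodule.coe_sum]
        refine Finset.sum_congr rfl fun e _ => ?_
        rw [ModOf.val_algebraMap_smul, Submodule.coe_smul, hD]
        rfl
      constructor
      · intro hy
        rw [← hsum, ← hy]
      · intro hy
        apply ModOf.val_injective
        apply Subtype.ext
        rw [hsum]
        exact hy
    obtain ⟨c, hc, huniq⟩ := hb (ModOf.val V a y)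
    exact ⟨c, (key c).mpr hc, fun c' hc' => huniq c' ((key c').mp hc')⟩
  · -- π_smul
    intro s y
    exact pi_semilinear P₀ PQ res α V₀ a₀ V h a hS hpS hinj hprime hqS hres hV₀ ha₀ hV ha π
      hπT hker s (ModOf.val V a y)
  · -- ker_π
    intro y
    have hset : {z : ModOf V a | ∃ (u : ∀ j : Fin r, (ZMod (qv j))ˣ) (y' : ModOf V a),
        z = D u y' - y'} =
        {z : V | ∃ (u : ∀ j : Fin r, (ZMod (qv j))ˣ) (y' : V),
          (z : XQ p t Smin qv 𝒪) = diaQ p t Smin qv 𝒪 u y' - y'} := by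
      ext z
      constructor
      · rintro ⟨u, y', rfl⟩
        exact ⟨u, ModOf.val V a y', rfl⟩
      · rintro ⟨u, y', hz⟩
        exact ⟨u, ModOf.mk V a y', Subtype.ext hz⟩
    rw [hset]
    exact hker y
  · -- Cmp
    intro j P hP φ hφ σ hσ u hu hcyc a₀' w hw y
    exact cmp_modOf PQ α V a hcomm hV hcmp j P hP φ hφ σ hσ u hu hcyc a₀' w hw y

end Build

/-! ## The glue -/

/-- **Layer 3 of the cell TW: `AutStatement` from its leaves.** -/
theorem aut_of_leaves (hIdem : IdemStatement) (hMod0 : Mod0Statement)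
    (hNon : NontrivStatement) (hModQ : ModQStatement) (hFree : FreeQStatement)
    (hCtrl : CtrlStatement) (hCmp : CmpStatement) : AutStatement := by
  intro p hpF 𝒪 _ _ _ _ _ _ ρbar Smin hh t ht hN P₀
  -- the minimal level
  obtain ⟨V₀, hV₀⟩ := hIdem 𝒪 (wilesLevel p t Smin Smin) (NeZero.ne _)
    (Gamma0 (wilesLevel p t Smin Smin)) (isMid_Gamma0 _) (TsetOf P₀) ∅
    (by
      rintro ⟨ℓ, c⟩ ⟨hℓ, hℓN, -, -⟩
      exact ⟨hℓ, hℓN⟩)
    (by
      intro x hx
      exact absurd hx (Set.notMem_empty x))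
  have hV₀' : IsMinPart P₀ V₀ := hV₀
  obtain ⟨a₀, ha₀⟩ := hMod0 p 𝒪 ρbar Smin hh t ht P₀ V₀ hV₀'
  have hnt : Nontrivial V₀ := hNon p 𝒪 ρbar Smin hh t ht P₀ V₀ hV₀'
  refine ⟨ModOf V₀ a₀, inferInstance, inferInstance, hnt, ?_⟩
  intro n r qv hq hNQ PQ res hres
  obtain ⟨hinj, hqv, hfrob⟩ := id hq
  have hprime : ∀ j, (qv j).Prime := fun j => (hqv j).1
  -- lifts of Frobenius eigenvalues
  choose Pv φv hPv hφv using fun j => Fermat.Agent.S54.exists_frobenius (qv j) (hprime j)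
  choose αk βk hαβ hchar using fun j => hfrob j (Pv j) (hPv j) (φv j) (hφv j)
  choose α hα using fun j => residue_surjective (αk j)
  have hFL : IsFrobLift ρbar qv α := fun j =>
    ⟨Pv j, φv j, βk j, hPv j, hφv j, by rw [hα]; exact hαβ j, by rw [hα]; exact hchar j⟩
  -- the level `Q`
  have hM : bLevel (wilesLevel p t Smin Smin) qv ≠ 0 :=
    Nat.mul_ne_zero (NeZero.ne _) (Finset.prod_ne_zero_iff.mpr fun j _ => (hprime j).ne_zero)
  obtain ⟨V, hV⟩ := hIdem 𝒪 (bLevel (wilesLevel p t Smin Smin) qv) hM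
    (KQ p (wilesLevel p t Smin Smin) qv) (isMid_KQ p _ qv) (TsetOf PQ) (UsetOf qv α)
    (by
      rintro ⟨ℓ, c⟩ ⟨hℓ, hℓN, hℓS, -⟩
      exact ⟨hℓ, not_dvd_bLevel hℓ hprime hℓN hℓS⟩)
    (by
      rintro ⟨q, c⟩ ⟨j, hj⟩
      have h1 : q = qv j := congrArg Prod.fst hj
      rw [h1]
      exact ⟨hprime j, dvd_bLevel _ qv j⟩)
  have hV' : IsQPart PQ α V := hV
  obtain ⟨h, a, hhalf, ha⟩ :=
    hModQ p 𝒪 ρbar Smin hh t ht P₀ n r qv hq PQ res hres α hFL V hV'
  exact exists_autLevel P₀ PQ res α V₀ a₀ V h a hh.hSmin hh.hpSmin hinj hprime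
    (fun j => (hqv j).2.1) hres hV₀' ha₀ hV' ha
    (hFree p 𝒪 ρbar Smin hh t ht P₀ n r qv hq PQ res hres α hFL V hV')
    (hCtrl p 𝒪 ρbar Smin hh t ht P₀ n r qv hq PQ res hres α hFL V₀ V hV₀' hV')
    (hCmp p 𝒪 ρbar Smin hh t ht P₀ n r qv hq PQ res hres α hFL V h a hV' hhalf ha)

end Fermat.Agent.S59.TW.Aut
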