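import Fermat.Agent.S59.TW.Aut.Main
import Fermat.Agent.S59.TW.Aut.H779.FreeQ
import Fermat.Agent.S59.H105.CtrlClosed
import Fermat.Agent.S59.TW.H314.CmpWire3
import Fermat.Agent.S59.TW.H24.BridgeClosed

/-!
# Row S59, cell TW, layer 3 (AUT): CLOSED modulo the frozen S30, S35, S36 (assembler helper511)

All leaves of `TW/Aut/Spec.lean` are closed on main:

| leaf | theorem | by |
|---|---|---|
| IDEM | `Aut.H511.idem` | helper511 |
| MOD0 | `Aut.H709.mod0` | helper709 (ES-ACT), helper324 (CUSP), helper31/186 (aux prime) |
| NONTRIV | `Aut.H581.nontriv` | helper581 |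
| MODQ | `Aut.H658.modQ` | helper658, helper564 |
| FREE | `Aut.H779.freeQ_h779` | helper779 (all odd `p`), helper181 (`5 ≤ p`), block M-FREE (helper761 et al.) |
| CTRL | `S59.H105.ctrl` | helper105, helper719, helper762 |
| CMP | `TW.H314.cmp_of_frozen` | helper314 (TW-ALG, GAL-T), helper81 (DICT-T), helper673 (DICT-R), helper788 (GAL-R) |
| BRIDGE | `TW.H24.bridge` | helper24, helper959 |

Hence

* `aut_of_frozen : S30Statement → S35Statement → S36Statement → TW.AutStatement`,
* `autPlus_of_frozen : S30Statement → S35Statement → S36Statement → TW.AutPlusStatement`.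

The three hypotheses are the types of the frozen statements S30, S35, S36 (kept as hypotheses to
keep the closure small; the final assembly plugs in `Fermat.Agent.S30.result` etc.).
-/

set_option autoImplicit false

namespace Fermat.Agent.S59.TW.Aut

/-- **Layer 3 of the cell TW is closed** modulo the frozen S30, S35, S36. -/
theorem aut_of_frozen (h30 : Fermat.Agent.S31.S30Statement)
    (h35 : Fermat.Agent.S58.S35Statement) (h36 : Fermat.Agent.S58.S36Statement) :
    TW.AutStatement :=
  aut_of_open H779.freeQ_h779 Fermat.Agent.S59.H105.ctrl (TW.H314.cmp_of_frozen h30 h35 h36)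

/-- **Layer 3 of the cell TW, `Plus` form, is closed** modulo the frozen S30, S35, S36. -/
theorem autPlus_of_frozen (h30 : Fermat.Agent.S31.S30Statement)
    (h35 : Fermat.Agent.S58.S35Statement) (h36 : Fermat.Agent.S58.S36Statement) :
    TW.AutPlusStatement :=
  autPlus_of_open H779.freeQ_h779 Fermat.Agent.S59.H105.ctrl
    (TW.H314.cmp_of_frozen h30 h35 h36) TW.H24.bridge

end Fermat.Agent.S59.TW.Aut
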