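import Fermat.Agent.S59.TW.Aut.Skel
import Fermat.Agent.S59.TW.Aut.H511.Idem
import Fermat.Agent.S59.TW.Aut.H709.Mod0
import Fermat.Agent.S59.TW.Aut.H581.Nontriv
import Fermat.Agent.S59.TW.Aut.H658.ModQ
import Fermat.Agent.S59.TW.H24.AutPlus

/-!
# Row S59, cell TW, layer 3 (AUT): the assembly of the closed leaves (assembler helper511)

Closed leaves of `TW/Aut/Spec.lean`, plugged in here:

| leaf | theorem |
|---|---|
| IDEM | `Aut.H511.idem` |
| MOD0 | `Aut.H709.mod0` (spare: `Aut.H511.mod0`) |
| NONTRIV | `Aut.H581.nontriv` |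
| MODQ | `Aut.H658.modQ` (spare: `Aut.H564.modQ`) |

Open leaves = the hypotheses of `aut_of_open`: FREE (`FreeQStatement`; closed for `5 ≤ p` by
`Aut.H181.freeQ_of_five_le`), CTRL (`CtrlStatement`), CMP (`CmpStatement`; layer 4 of helper314:
`TW.H314.cmp_of_leaves`), and, for the `Plus` form, BRIDGE (`TW.H24.BridgeStatement`).
-/

set_option autoImplicit false

namespace Fermat.Agent.S59.TW.Aut

/-- **Layer 3 of the cell TW** from the three open leaves FREE, CTRL, CMP. -/
theorem aut_of_open (hFree : FreeQStatement) (hCtrl : CtrlStatement) (hCmp : CmpStatement) :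
    TW.AutStatement :=
  aut_of_leaves H511.idem H709.mod0 H581.nontriv H658.modQ hFree hCtrl hCmp

/-- **Layer 3 of the cell TW, `Plus` form**, from the open leaves FREE, CTRL, CMP, BRIDGE. -/
theorem autPlus_of_open (hFree : FreeQStatement) (hCtrl : CtrlStatement) (hCmp : CmpStatement)
    (hBridge : TW.H24.BridgeStatement) : TW.AutPlusStatement :=
  TW.H24.autPlus_of_leaves H511.idem H709.mod0 H581.nontriv H658.modQ hFree hCtrl hCmp hBridge

end Fermat.Agent.S59.TW.Aut
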